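import Fermat.Agent.S21.J2.WeierstrassUnique

/-!
# Project ES, WP-J2: the `j`-invariant is injective modulo `SL(2,ℤ)`

`E₄(z₁)³ Δ(z₂) = E₄(z₂)³ Δ(z₁)` implies `z₂ = g • z₁` for some `g : SL(2,ℤ)`.
-/

set_option autoImplicit false

open UpperHalfPlane ModularForm EisensteinSeries PeriodPair
open scoped MatrixGroups

namespace Fermat.Agent.S21.J2

/-- the period pair `(c z, c)` for `c ≠ 0`, `z ∈ ℍ`. -/
noncomputable def ppair (c : ℂ) (hc : c ≠ 0) (z : ℍ) : PeriodPair where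
  ω₁ := c * z
  ω₂ := c
  indep := by
    rw [LinearIndependent.pair_iff]
    intro s t h
    have h1 : c * (s * z + t) = 0 := by
      simp only [Complex.real_smul] at h; linear_combination h
    have h2 : (s : ℂ) * z + t = 0 := (mul_eq_zero.mp h1).resolve_left hc
    have h3 := congrArg Complex.im h2
    have h4 := congrArg Complex.re h2
    simp only [Complex.add_im, Complex.mul_im, Complex.ofReal_re, Complex.ofReal_im, zero_mul,
      add_zero, Complex.zero_im, UpperHalfPlane.coe_im, Complex.add_re, Complex.mul_re,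
      UpperHalfPlane.coe_re, sub_zero, Complex.zero_re] at h3 h4
    have hs : s = 0 := (mul_eq_zero.mp h3).resolve_right z.im_pos.ne'
    subst hs
    simp only [zero_mul, zero_add] at h4
    exact ⟨rfl, h4⟩

@[simp] theorem ppair_ω₁ (c : ℂ) (hc : c ≠ 0) (z : ℍ) : (ppair c hc z).ω₁ = c * z := rfl
@[simp] theorem ppair_ω₂ (c : ℂ) (hc : c ≠ 0) (z : ℍ) : (ppair c hc z).ω₂ = c := rfl

theorem G_ppair (c : ℂ) (hc : c ≠ 0) (z : ℍ) (k : ℕ) :
    (ppair c hc z).G k = (c ^ k)⁻¹ * ∑' v : Fin 2 → ℤ, eisSummand k v z := by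
  set L := ppair c hc z with hL
  rw [PeriodPair.G, ← L.latticeEquivProd.symm.toEquiv.tsum_eq,
    ← (finTwoArrowEquiv ℤ).tsum_eq, ← tsum_mul_left]
  refine tsum_congr fun v => ?_
  have hv : (finTwoArrowEquiv ℤ) v = (v 0, v 1) := rfl
  simp only [LinearEquiv.coe_toEquiv, hv, L.latticeEquiv_symm_apply]
  simp only [hL, ppair_ω₁, ppair_ω₂, eisSummand, zpow_neg, zpow_natCast]
  rw [← mul_inv, ← mul_pow]
  congr 2
  ring

theorem eisSum_eq (k : ℕ) (hk : 3 ≤ k) (z : ℍ) :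
    ∑' v : Fin 2 → ℤ, eisSummand k v z = 2 * riemannZeta k * E hk z := by
  rw [tsum_eisSummand_eq_riemannZeta_mul_eisensteinSeries hk z,
    show E hk z = (1 / 2 : ℂ) • eisensteinSeriesSIF (N := 1) 0 k z from rfl,
    eisensteinSeriesSIF_apply 0 k z, smul_eq_mul]
  ring

theorem g₂_ppair (c : ℂ) (hc : c ≠ 0) (z : ℍ) :
    (ppair c hc z).g₂ = 120 * riemannZeta 4 * ((c ^ 4)⁻¹ * E₄ z) := by
  have h := eisSum_eq 4 (by norm_num) z
  rw [PeriodPair.g₂, G_ppair, h]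
  push_cast
  ring

theorem g₃_ppair (c : ℂ) (hc : c ≠ 0) (z : ℍ) :
    (ppair c hc z).g₃ = 280 * riemannZeta 6 * ((c ^ 6)⁻¹ * E₆ z) := by
  have h := eisSum_eq 6 (by norm_num) z
  rw [PeriodPair.g₃, G_ppair, h]
  push_cast
  ring

/-- pure algebra: the scaling constant -/
theorem exists_scaling {a₁ b₁ a₂ b₂ : ℂ} (h₁ : a₁ ^ 3 - b₁ ^ 2 ≠ 0) (h₂ : a₂ ^ 3 - b₂ ^ 2 ≠ 0)
    (h : a₁ ^ 3 * b₂ ^ 2 = a₂ ^ 3 * b₁ ^ 2) :
    ∃ c : ℂ, c ≠ 0 ∧ a₁ = c ^ 4 * a₂ ∧ b₁ = c ^ 6 * b₂ := by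
  by_cases ha₁ : a₁ = 0
  · -- then `a₂ = 0`, `b₁ b₂ ≠ 0`
    subst ha₁
    have hb₁ : b₁ ≠ 0 := by
      intro hb; apply h₁; rw [hb]; ring
    have ha₂ : a₂ = 0 := by
      have : a₂ ^ 3 * b₁ ^ 2 = 0 := by rw [← h]; ring
      rcases mul_eq_zero.mp this with h' | h'
      · exact pow_eq_zero_iff (by norm_num) |>.mp h'
      · exact absurd (pow_eq_zero_iff (by norm_num) |>.mp h') hb₁
    subst ha₂
    have hb₂ : b₂ ≠ 0 := by
      intro hb; apply h₂; rw [hb]; ring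
    obtain ⟨c, hc⟩ := IsAlgClosed.exists_pow_nat_eq (b₁ / b₂) (n := 6) (by norm_num)
    refine ⟨c, ?_, by simp, ?_⟩
    · rintro rfl
      have : b₁ / b₂ = 0 := by rw [← hc]; ring
      exact div_ne_zero hb₁ hb₂ this
    · rw [hc]; field_simp
  by_cases hb₁ : b₁ = 0
  · subst hb₁
    have hb₂ : b₂ = 0 := by
      have : a₁ ^ 3 * b₂ ^ 2 = 0 := by rw [h]; ring
      rcases mul_eq_zero.mp this with h' | h'
      · exact absurd (pow_eq_zero_iff (by norm_num) |>.mp h') ha₁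
      · exact pow_eq_zero_iff (by norm_num) |>.mp h'
    subst hb₂
    have ha₂ : a₂ ≠ 0 := by
      intro ha; apply h₂; rw [ha]; ring
    obtain ⟨c, hc⟩ := IsAlgClosed.exists_pow_nat_eq (a₁ / a₂) (n := 4) (by norm_num)
    refine ⟨c, ?_, ?_, by simp⟩
    · rintro rfl
      have : a₁ / a₂ = 0 := by rw [← hc]; ring
      exact div_ne_zero ha₁ ha₂ this
    · rw [hc]; field_simp
  -- generic case
  have ha₂ : a₂ ≠ 0 := by
    intro ha
    have : a₁ ^ 3 * b₂ ^ 2 = 0 := by rw [h, ha]; ring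
    rcases mul_eq_zero.mp this with h' | h'
    · exact ha₁ (pow_eq_zero_iff (by norm_num) |>.mp h')
    · have hb : b₂ = 0 := pow_eq_zero_iff (by norm_num) |>.mp h'
      apply h₂; rw [ha, hb]; ring
  have hb₂ : b₂ ≠ 0 := by
    intro hb
    have : a₂ ^ 3 * b₁ ^ 2 = 0 := by rw [← h, hb]; ring
    rcases mul_eq_zero.mp this with h' | h'
    · exact ha₂ (pow_eq_zero_iff (by norm_num) |>.mp h')
    · exact hb₁ (pow_eq_zero_iff (by norm_num) |>.mp h')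
  obtain ⟨c, hc⟩ := IsAlgClosed.exists_pow_nat_eq ((b₁ / b₂) / (a₁ / a₂)) (n := 2) (by norm_num)
  have hst : (a₁ / a₂) ^ 3 = (b₁ / b₂) ^ 2 := by
    field_simp
    linear_combination h
  have hs : a₁ / a₂ ≠ 0 := div_ne_zero ha₁ ha₂
  have ht : b₁ / b₂ ≠ 0 := div_ne_zero hb₁ hb₂
  have hc4 : c ^ 4 = a₁ / a₂ := by
    have : c ^ 4 = (c ^ 2) ^ 2 := by ring
    rw [this, hc, div_pow, ← hst]
    field_simp
  have hc6 : c ^ 6 = b₁ / b₂ := by
    have : c ^ 6 = (c ^ 2) ^ 3 := by ring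
    rw [this, hc, div_pow, hst]
    field_simp
  refine ⟨c, ?_, ?_, ?_⟩
  · rintro rfl
    have : a₁ / a₂ = 0 := by rw [← hc4]; ring
    exact hs this
  · rw [hc4]; field_simp
  · rw [hc6]; field_simp

/-- lattice equality gives a Möbius transformation -/
theorem exists_SL2_of_lattice_eq (c : ℂ) (hc : c ≠ 0) (z₁ z₂ : ℍ)
    (h : (ppair c hc z₁).lattice = (ppair 1 one_ne_zero z₂).lattice) :
    ∃ g : SL(2, ℤ), z₂ = g • z₁ := by
  set L₁ := ppair c hc z₁ with hL₁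
  set L₂ := ppair 1 one_ne_zero z₂ with hL₂
  -- the four membership relations
  obtain ⟨α, β, e₁⟩ := PeriodPair.mem_lattice.mp (h ▸ L₂.ω₁_mem_lattice : L₂.ω₁ ∈ L₁.lattice)
  obtain ⟨γ, δ, e₂⟩ := PeriodPair.mem_lattice.mp (h ▸ L₂.ω₂_mem_lattice : L₂.ω₂ ∈ L₁.lattice)
  obtain ⟨α', β', e₃⟩ := PeriodPair.mem_lattice.mp (h ▸ L₁.ω₁_mem_lattice : L₁.ω₁ ∈ L₂.lattice)
  obtain ⟨γ', δ', e₄⟩ := PeriodPair.mem_lattice.mp (h ▸ L₁.ω₂_mem_lattice : L₁.ω₂ ∈ L₂.lattice)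
  simp only [hL₁, hL₂, ppair_ω₁, ppair_ω₂, one_mul, mul_one] at e₁ e₂ e₃ e₄
  -- e₁ : α * (c * z₁) + β * c = z₂ ; e₂ : γ * (c * z₁) + δ * c = 1
  -- e₃ : α' * z₂ + β' = c * z₁ ; e₄ : γ' * z₂ + δ' = c
  have hy₁ : 0 < (z₁ : ℂ).im := z₁.im_pos
  have hy₂ : 0 < (z₂ : ℂ).im := z₂.im_pos
  -- M * M' = 1
  have k₁ : ((α * α' + β * γ' - 1 : ℤ) : ℂ) * z₂ + ((α * β' + β * δ' : ℤ) : ℂ) = 0 := by
    push_cast
    linear_combination (α : ℂ) * e₃ + (β : ℂ) * e₄ + e₁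
  have k₂ : ((γ * α' + δ * γ' : ℤ) : ℂ) * z₂ + ((γ * β' + δ * δ' - 1 : ℤ) : ℂ) = 0 := by
    push_cast
    linear_combination (γ : ℂ) * e₃ + (δ : ℂ) * e₄ + e₂
  have aux : ∀ m n : ℤ, (m : ℂ) * z₂ + (n : ℂ) = 0 → m = 0 ∧ n = 0 := by
    intro m n hmn
    have h3 := congrArg Complex.im hmn
    have h4 := congrArg Complex.re hmn
    simp only [Complex.add_im, Complex.mul_im, Complex.intCast_re, Complex.intCast_im, zero_mul,
      add_zero, Complex.zero_im, Complex.add_re, Complex.mul_re, sub_zero,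
      Complex.zero_re] at h3 h4
    have hm : (m : ℝ) = 0 := (mul_eq_zero.mp h3).resolve_right hy₂.ne'
    have hm' : m = 0 := by exact_mod_cast hm
    subst hm'
    simp only [Int.cast_zero, zero_mul, zero_add] at h4
    exact ⟨rfl, by exact_mod_cast h4⟩
  obtain ⟨r₁, r₂⟩ := aux _ _ k₁
  obtain ⟨r₃, r₄⟩ := aux _ _ k₂
  have hdet : (α * δ - β * γ) * (α' * δ' - β' * γ') = 1 := by
    linear_combination (γ * β' + δ * δ') * r₁ + r₄ - (γ * α' + δ * γ') * r₂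
  -- the relation `z₂ * (γ z₁ + δ) = α z₁ + β`
  have hden : c * ((γ : ℂ) * z₁ + δ) = 1 := by linear_combination e₂
  have hden0 : (γ : ℂ) * z₁ + δ ≠ 0 := right_ne_zero_of_mul_eq_one hden
  have hnum : (z₂ : ℂ) * ((γ : ℂ) * z₁ + δ) = (α : ℂ) * z₁ + β := by
    linear_combination ((α : ℂ) * z₁ + β) * hden - ((γ : ℂ) * z₁ + δ) * e₁
  -- positivity of the determinant
  have hnormpos : 0 < Complex.normSq ((γ : ℂ) * z₁ + δ) := Complex.normSq_pos.mpr hden0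
  have himrel : ((α * δ - β * γ : ℤ) : ℝ) * (z₁ : ℂ).im
      = (z₂ : ℂ).im * Complex.normSq ((γ : ℂ) * z₁ + δ) := by
    have hre := congrArg Complex.re hnum
    have him := congrArg Complex.im hnum
    simp only [Complex.add_im, Complex.mul_im, Complex.intCast_re, Complex.intCast_im, zero_mul,
      add_zero, Complex.add_re, Complex.mul_re, sub_zero] at hre him
    rw [Complex.normSq_apply]
    simp only [Complex.add_im, Complex.mul_im, Complex.intCast_re, Complex.intCast_im, zero_mul,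
      add_zero, Complex.add_re, Complex.mul_re, sub_zero]
    push_cast
    linear_combination ((γ : ℝ) * (z₁ : ℂ).im) * hre - ((γ : ℝ) * (z₁ : ℂ).re + δ) * him
  have hdetpos : 0 < α * δ - β * γ := by
    have h1 : 0 < ((α * δ - β * γ : ℤ) : ℝ) * (z₁ : ℂ).im := by
      rw [himrel]; exact mul_pos hy₂ hnormpos
    have h2 : 0 < ((α * δ - β * γ : ℤ) : ℝ) := pos_of_mul_pos_left h1 hy₁.le
    exact_mod_cast h2
  have hdet1 : α * δ - β * γ = 1 := by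
    rcases Int.eq_one_or_neg_one_of_mul_eq_one hdet with h' | h'
    · exact h'
    · rw [h'] at hdetpos; exact absurd hdetpos (by decide)
  refine ⟨⟨!![α, β; γ, δ], by rw [Matrix.det_fin_two_of]; exact hdet1⟩, ?_⟩
  apply UpperHalfPlane.ext
  have hsm := UpperHalfPlane.coe_specialLinearGroup_apply
    (⟨!![α, β; γ, δ], by rw [Matrix.det_fin_two_of]; exact hdet1⟩ : SL(2, ℤ)) z₁
  rw [hsm]
  simp only [Matrix.of_apply, Matrix.cons_val', Matrix.cons_val_zero,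
    Matrix.cons_val_one, Matrix.empty_val', Matrix.cons_val_fin_one, algebraMap_int_eq,
    Int.coe_castRingHom, Complex.ofReal_intCast]
  rw [eq_div_iff hden0]
  exact hnum

/-- Two points of `ℍ` whose lattices have proportional invariants `(E₄, E₆)` are
`SL(2,ℤ)`-equivalent. -/
theorem exists_SL2_of_scaling (z₁ z₂ : ℍ) (c : ℂ) (hc : c ≠ 0) (h4 : E₄ z₁ = c ^ 4 * E₄ z₂)
    (h6 : E₆ z₁ = c ^ 6 * E₆ z₂) : ∃ g : SL(2, ℤ), z₂ = g • z₁ := by
  refine exists_SL2_of_lattice_eq c hc z₁ z₂ (lattice_eq_of_g_eq _ _ ?_ ?_)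
  · rw [g₂_ppair, g₂_ppair, h4]
    have hc4 : c ^ 4 ≠ 0 := pow_ne_zero 4 hc
    field_simp
  · rw [g₃_ppair, g₃_ppair, h6]
    have hc6 : c ^ 6 ≠ 0 := pow_ne_zero 6 hc
    field_simp

/-- **The `j`-invariant is injective modulo `SL(2,ℤ)`** (cross-multiplied form, in terms of
`E₄` and `E₆`). -/
theorem exists_SL2_of_E₄_E₆ (z₁ z₂ : ℍ)
    (h : E₄ z₁ ^ 3 * E₆ z₂ ^ 2 = E₄ z₂ ^ 3 * E₆ z₁ ^ 2) : ∃ g : SL(2, ℤ), z₂ = g • z₁ := by
  have d₁ : E₄ z₁ ^ 3 - E₆ z₁ ^ 2 ≠ 0 := by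
    have := discriminant_ne_zero z₁
    rw [discriminant_eq_E₄_cube_sub_E₆_sq] at this
    exact fun h0 => this (by rw [h0]; simp)
  have d₂ : E₄ z₂ ^ 3 - E₆ z₂ ^ 2 ≠ 0 := by
    have := discriminant_ne_zero z₂
    rw [discriminant_eq_E₄_cube_sub_E₆_sq] at this
    exact fun h0 => this (by rw [h0]; simp)
  obtain ⟨c, hc, h4, h6⟩ := exists_scaling d₁ d₂ h
  exact exists_SL2_of_scaling z₁ z₂ c hc h4 h6

/-- **The `j`-invariant is injective modulo `SL(2,ℤ)`** (cross-multiplied form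
`E₄(z₁)³ Δ(z₂) = E₄(z₂)³ Δ(z₁)`). -/
theorem j_injective (z₁ z₂ : ℍ)
    (h : E₄ z₁ ^ 3 * discriminant z₂ = E₄ z₂ ^ 3 * discriminant z₁) :
    ∃ g : SL(2, ℤ), z₂ = g • z₁ := by
  refine exists_SL2_of_E₄_E₆ z₁ z₂ ?_
  rw [discriminant_eq_E₄_cube_sub_E₆_sq, discriminant_eq_E₄_cube_sub_E₆_sq] at h
  linear_combination (-1728 : ℂ) * h

/-- The converse: `SL(2,ℤ)`-equivalent points have the same `j`-invariant. -/
theorem j_invariant (z : ℍ) (g : SL(2, ℤ)) :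
    E₄ z ^ 3 * discriminant (g • z) = E₄ (g • z) ^ 3 * discriminant z := by
  have hg : Matrix.SpecialLinearGroup.mapGL ℝ g ∈ (Matrix.SpecialLinearGroup.mapGL ℝ).range :=
    ⟨g, rfl⟩
  have h4 : E₄ (g • z) = denom g z ^ (4 : ℤ) * E₄ z :=
    SlashInvariantForm.slash_action_eqn'' E₄ hg z
  have h12 : CuspForm.discriminant (g • z) = denom g z ^ (12 : ℤ) * CuspForm.discriminant z :=
    SlashInvariantForm.slash_action_eqn'' CuspForm.discriminant hg z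
  rw [CuspForm.coe_discriminant] at h12
  rw [h4, h12]
  have e4 : denom g z ^ (4 : ℤ) = denom g z ^ 4 := by norm_cast
  have e12 : denom g z ^ (12 : ℤ) = denom g z ^ 12 := by norm_cast
  rw [e4, e12]
  ring

end Fermat.Agent.S21.J2
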