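import Mathlib

/-!
# Project ES, WP-J2: rigidity for a first order ODE at a regular singular point

If `F, A, B` are analytic at `0`, `z * A z * F' z = B z * F z` near `0` and `n * A 0 ≠ B 0` for all
natural numbers `n`, then `F` vanishes identically near `0`.
-/

set_option autoImplicit false

open Filter Topology

namespace Fermat.Agent.S21.J2

theorem eventually_eq_zero_of_singular_ode {F A B : ℂ → ℂ}
    (hF : AnalyticAt ℂ F 0) (hA : AnalyticAt ℂ A 0) (hB : AnalyticAt ℂ B 0)
    (hode : ∀ᶠ z in 𝓝 (0 : ℂ), z * A z * deriv F z = B z * F z)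
    (hne : ∀ n : ℕ, (n : ℂ) * A 0 ≠ B 0) :
    ∀ᶠ z in 𝓝 (0 : ℂ), F z = 0 := by
  by_contra hcon
  have htop : analyticOrderAt F 0 ≠ ⊤ := by rwa [Ne, analyticOrderAt_eq_top]
  obtain ⟨n, hn⟩ := ENat.ne_top_iff_exists.mp htop
  obtain ⟨u, hu, hu0, hFu⟩ := (hF.analyticOrderAt_eq_natCast).mp hn.symm
  simp only [sub_zero, smul_eq_mul] at hFu
  -- derivative of `F` near `0`
  have hderiv : ∀ᶠ z in 𝓝 (0 : ℂ), deriv F z = n * z ^ (n - 1) * u z + z ^ n * deriv u z := by
    have h1 : ∀ᶠ z in 𝓝 (0 : ℂ), F =ᶠ[𝓝 z] fun w => w ^ n * u w := hFu.eventually_nhds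
    have h2 : ∀ᶠ z in 𝓝 (0 : ℂ), DifferentiableAt ℂ u z :=
      hu.eventually_analyticAt.mono fun z hz => hz.differentiableAt
    filter_upwards [h1, h2] with z hz1 hz2
    rw [hz1.deriv_eq]
    have h3 : HasDerivAt (fun w : ℂ => w ^ n * u w)
        ((n : ℂ) * z ^ (n - 1) * u z + z ^ n * deriv u z) z :=
      (hasDerivAt_pow n z).mul hz2.hasDerivAt
    exact h3.deriv
  -- the key identity on a punctured neighbourhood
  have hkey : ∀ᶠ z in 𝓝[≠] (0 : ℂ), A z * (n * u z + z * deriv u z) = B z * u z := by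
    have h : ∀ᶠ z in 𝓝[≠] (0 : ℂ), z * A z * deriv F z = B z * F z ∧
        deriv F z = n * z ^ (n - 1) * u z + z ^ n * deriv u z ∧ F z = z ^ n * u z :=
      (hode.and (hderiv.and hFu)).filter_mono nhdsWithin_le_nhds
    filter_upwards [h, self_mem_nhdsWithin] with z ⟨h1, h2, h3⟩ hz
    have hz0 : z ≠ 0 := hz
    rw [h2, h3] at h1
    have hzn : z ^ n ≠ 0 := pow_ne_zero n hz0
    have h4 : z * (n * z ^ (n - 1)) = n * z ^ n := by
      rcases Nat.eq_zero_or_pos n with h0 | hpos
      · subst h0; simp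
      · have : z ^ n = z ^ (n - 1) * z := by
          rw [← pow_succ, Nat.sub_add_cancel hpos]
        rw [this]; ring
    have h5 : z ^ n * (A z * (n * u z + z * deriv u z)) = z ^ n * (B z * u z) := by
      have : z * A z * (↑n * z ^ (n - 1) * u z + z ^ n * deriv u z)
          = A z * ((z * (n * z ^ (n - 1))) * u z + z ^ n * (z * deriv u z)) := by ring
      rw [this, h4] at h1
      linear_combination h1
    exact mul_left_cancel₀ hzn h5
  -- pass to the limit
  have hcontL : ContinuousAt (fun z => A z * (n * u z + z * deriv u z)) 0 := by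
    have hdu : ContinuousAt (deriv u) 0 := hu.deriv.continuousAt
    exact hA.continuousAt.mul ((continuousAt_const.mul hu.continuousAt).add
      (continuousAt_id.mul hdu))
  have hcontR : ContinuousAt (fun z => B z * u z) 0 := hB.continuousAt.mul hu.continuousAt
  have hlimL := hcontL.tendsto.mono_left (nhdsWithin_le_nhds (s := {0}ᶜ))
  have hlimR := hcontR.tendsto.mono_left (nhdsWithin_le_nhds (s := {0}ᶜ))
  have hEq := tendsto_nhds_unique (hlimL.congr' hkey) hlimR
  simp only [zero_mul, add_zero] at hEq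
  have : ((n : ℂ) * A 0 - B 0) * u 0 = 0 := by linear_combination hEq
  rcases mul_eq_zero.mp this with h | h
  · exact hne n (sub_eq_zero.mp h)
  · exact hu0 h

end Fermat.Agent.S21.J2
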