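import Fermat.Agent.S21.J2.SingularODE

/-!
# Project ES, WP-J2: the invariants `g₂, g₃` determine the period lattice

If two period pairs have the same `g₂` and `g₃`, then their Weierstrass `℘`-functions agree
(both solve `℘'² = 4℘³ - g₂℘ - g₃` with a double pole at `0`), hence so do their lattices
(the pole sets).
-/

set_option autoImplicit false

open Filter Topology PeriodPair

namespace Fermat.Agent.S21.J2

/-- `℘ z = ℘[L - 0] z + 1 / z ^ 2` for every `z`. -/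
theorem weierstrassP_eq_except_zero (L : PeriodPair) (z : ℂ) :
    L.weierstrassP z = L.weierstrassPExcept 0 z + 1 / z ^ 2 := by
  have h := L.weierstrassPExcept_def (0 : L.lattice) z
  simp only [ZeroMemClass.coe_zero, sub_zero] at h
  rw [h]; simp

/-- `℘' z = ℘'[L - 0] z - 2 / z ^ 3` for every `z`. -/
theorem derivWeierstrassP_eq_except_zero (L : PeriodPair) (z : ℂ) :
    L.derivWeierstrassP z = L.derivWeierstrassPExcept 0 z - 2 / z ^ 3 := by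
  have h := L.derivWeierstrassPExcept_def (0 : L.lattice) z
  simp only [ZeroMemClass.coe_zero, sub_zero] at h
  rw [h]; ring

/-- Near `0` the regular parts of two `℘`-functions with the same invariants agree. -/
theorem eventually_weierstrassPExcept_eq (L₁ L₂ : PeriodPair) (h2 : L₁.g₂ = L₂.g₂)
    (h3 : L₁.g₃ = L₂.g₃) :
    ∀ᶠ z in 𝓝 (0 : ℂ), L₁.weierstrassPExcept 0 z = L₂.weierstrassPExcept 0 z := by
  set P₁ := L₁.weierstrassPExcept 0 with hP₁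
  set P₂ := L₂.weierstrassPExcept 0 with hP₂
  set Q₁ := L₁.derivWeierstrassPExcept 0 with hQ₁
  set Q₂ := L₂.derivWeierstrassPExcept 0 with hQ₂
  have aP₁ : AnalyticAt ℂ P₁ 0 := L₁.analyticAt_weierstrassPExcept 0
  have aP₂ : AnalyticAt ℂ P₂ 0 := L₂.analyticAt_weierstrassPExcept 0
  have aQ₁ : AnalyticAt ℂ Q₁ 0 := L₁.analyticAt_derivWeierstrassPExcept 0
  have aQ₂ : AnalyticAt ℂ Q₂ 0 := L₂.analyticAt_derivWeierstrassPExcept 0
  have aid : AnalyticAt ℂ (fun z : ℂ => z) 0 := analyticAt_id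
  let F : ℂ → ℂ := fun z => P₁ z - P₂ z
  let A : ℂ → ℂ := fun z => (-2 + z ^ 3 * Q₁ z) + (-2 + z ^ 3 * Q₂ z)
  let B : ℂ → ℂ := fun z => 4 * ((1 + z ^ 2 * P₁ z) ^ 2 + (1 + z ^ 2 * P₁ z) * (1 + z ^ 2 * P₂ z)
      + (1 + z ^ 2 * P₂ z) ^ 2) - L₁.g₂ * z ^ 4
  have aF : AnalyticAt ℂ F 0 := aP₁.sub aP₂
  have aA : AnalyticAt ℂ A 0 :=
    (analyticAt_const.add ((aid.pow 3).mul aQ₁)).add (analyticAt_const.add ((aid.pow 3).mul aQ₂))
  have aB : AnalyticAt ℂ B 0 := by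
    have u₁ : AnalyticAt ℂ (fun z : ℂ => 1 + z ^ 2 * P₁ z) 0 :=
      analyticAt_const.add ((aid.pow 2).mul aP₁)
    have u₂ : AnalyticAt ℂ (fun z : ℂ => 1 + z ^ 2 * P₂ z) 0 :=
      analyticAt_const.add ((aid.pow 2).mul aP₂)
    exact (analyticAt_const.mul (((u₁.pow 2).add (u₁.mul u₂)).add (u₂.pow 2))).sub
      (analyticAt_const.mul (aid.pow 4))
  -- the ODE on a punctured neighbourhood
  have hpunct : ∀ᶠ z in 𝓝[≠] (0 : ℂ), z * A z * deriv F z = B z * F z := by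
    have m₁ : ∀ᶠ z in 𝓝[≠] (0 : ℂ), z ∈ ((L₁.lattice : Set ℂ) \ {(0 : ℂ)})ᶜ :=
      nhdsWithin_le_nhds (L₁.compl_lattice_sdiff_singleton_mem_nhds 0)
    have m₂ : ∀ᶠ z in 𝓝[≠] (0 : ℂ), z ∈ ((L₂.lattice : Set ℂ) \ {(0 : ℂ)})ᶜ :=
      nhdsWithin_le_nhds (L₂.compl_lattice_sdiff_singleton_mem_nhds 0)
    have d₁ : ∀ᶠ z in 𝓝[≠] (0 : ℂ), DifferentiableAt ℂ P₁ z :=
      nhdsWithin_le_nhds (aP₁.eventually_analyticAt.mono fun z hz => hz.differentiableAt)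
    have d₂ : ∀ᶠ z in 𝓝[≠] (0 : ℂ), DifferentiableAt ℂ P₂ z :=
      nhdsWithin_le_nhds (aP₂.eventually_analyticAt.mono fun z hz => hz.differentiableAt)
    filter_upwards [m₁, m₂, d₁, d₂, self_mem_nhdsWithin] with z hz₁ hz₂ hd₁ hd₂ hz
    have hz0 : z ≠ 0 := hz
    have hzL₁ : z ∉ L₁.lattice := fun hmem => hz₁ ⟨hmem, hz0⟩
    have hzL₂ : z ∉ L₂.lattice := fun hmem => hz₂ ⟨hmem, hz0⟩
    have hdF : deriv F z = Q₁ z - Q₂ z := by
      have : deriv F z = deriv P₁ z - deriv P₂ z := deriv_sub hd₁ hd₂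
      rw [this, L₁.eqOn_deriv_weierstrassPExcept_derivWeierstrassPExcept 0 hz₁,
        L₂.eqOn_deriv_weierstrassPExcept_derivWeierstrassPExcept 0 hz₂]
    have e₁ := L₁.derivWeierstrassP_sq z hzL₁
    have e₂ := L₂.derivWeierstrassP_sq z hzL₂
    rw [weierstrassP_eq_except_zero, derivWeierstrassP_eq_except_zero] at e₁ e₂
    rw [← h2, ← h3] at e₂
    have f₁ : (-2 + z ^ 3 * Q₁ z) ^ 2 = 4 * (1 + z ^ 2 * P₁ z) ^ 3
        - L₁.g₂ * z ^ 4 * (1 + z ^ 2 * P₁ z) - L₁.g₃ * z ^ 6 := by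
      have : (-2 + z ^ 3 * Q₁ z) ^ 2 = z ^ 6 * (Q₁ z - 2 / z ^ 3) ^ 2 := by
        field_simp; ring
      rw [this, e₁]; field_simp; ring
    have f₂ : (-2 + z ^ 3 * Q₂ z) ^ 2 = 4 * (1 + z ^ 2 * P₂ z) ^ 3
        - L₁.g₂ * z ^ 4 * (1 + z ^ 2 * P₂ z) - L₁.g₃ * z ^ 6 := by
      have : (-2 + z ^ 3 * Q₂ z) ^ 2 = z ^ 6 * (Q₂ z - 2 / z ^ 3) ^ 2 := by
        field_simp; ring
      rw [this, e₂]; field_simp; ring
    have hz2 : z ^ 2 ≠ 0 := pow_ne_zero 2 hz0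
    refine mul_left_cancel₀ hz2 ?_
    simp only [F, A, B, hdF]
    linear_combination f₁ - f₂
  have hode : ∀ᶠ z in 𝓝 (0 : ℂ), z * A z * deriv F z = B z * F z :=
    (AnalyticAt.frequently_eq_iff_eventually_eq ((aid.mul aA).mul aF.deriv) (aB.mul aF)).mp
      hpunct.frequently
  have hne : ∀ n : ℕ, (n : ℂ) * A 0 ≠ B 0 := by
    intro n hn
    simp only [A, B] at hn
    norm_num at hn
    have h4 : ((n : ℂ)) * 4 + 12 = 0 := by linear_combination -hn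
    have h5 : ((n * 4 + 12 : ℕ) : ℂ) = 0 := by push_cast; exact h4
    have h6 : n * 4 + 12 = 0 := by exact_mod_cast h5
    omega
  have := eventually_eq_zero_of_singular_ode aF aA aB hode hne
  filter_upwards [this] with z hz
  exact sub_eq_zero.mp hz

/-- Near `0` two `℘`-functions with the same invariants agree. -/
theorem eventually_weierstrassP_eq (L₁ L₂ : PeriodPair) (h2 : L₁.g₂ = L₂.g₂)
    (h3 : L₁.g₃ = L₂.g₃) :
    ∀ᶠ z in 𝓝 (0 : ℂ), L₁.weierstrassP z = L₂.weierstrassP z := by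
  filter_upwards [eventually_weierstrassPExcept_eq L₁ L₂ h2 h3] with z hz
  rw [weierstrassP_eq_except_zero, weierstrassP_eq_except_zero, hz]

theorem lattice_countable (L : PeriodPair) : (L.lattice : Set ℂ).Countable := by
  have : Countable L.lattice := L.latticeEquivProd.toEquiv.injective.countable
  exact Set.to_countable _

/-- Two `℘`-functions with the same invariants agree away from the two lattices. -/
theorem weierstrassP_eqOn (L₁ L₂ : PeriodPair) (h2 : L₁.g₂ = L₂.g₂) (h3 : L₁.g₃ = L₂.g₃) :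
    Set.EqOn L₁.weierstrassP L₂.weierstrassP ((L₁.lattice : Set ℂ) ∪ L₂.lattice)ᶜ := by
  set U : Set ℂ := ((L₁.lattice : Set ℂ) ∪ L₂.lattice)ᶜ with hU
  have hUconn : IsPreconnected U := by
    have hc : ((L₁.lattice : Set ℂ) ∪ L₂.lattice).Countable :=
      (lattice_countable L₁).union (lattice_countable L₂)
    have hr : 1 < Module.rank ℝ ℂ := by
      rw [Complex.rank_real_complex]; norm_num
    exact (hc.isPathConnected_compl_of_one_lt_rank hr).isConnected.isPreconnected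
  have a₁ : AnalyticOnNhd ℂ L₁.weierstrassP U :=
    L₁.analyticOnNhd_weierstrassP.mono (Set.compl_subset_compl.mpr Set.subset_union_left)
  have a₂ : AnalyticOnNhd ℂ L₂.weierstrassP U :=
    L₂.analyticOnNhd_weierstrassP.mono (Set.compl_subset_compl.mpr Set.subset_union_right)
  -- a base point
  have m₁ : ∀ᶠ z in 𝓝[≠] (0 : ℂ), z ∈ ((L₁.lattice : Set ℂ) \ {(0 : ℂ)})ᶜ :=
    nhdsWithin_le_nhds (L₁.compl_lattice_sdiff_singleton_mem_nhds 0)
  have m₂ : ∀ᶠ z in 𝓝[≠] (0 : ℂ), z ∈ ((L₂.lattice : Set ℂ) \ {(0 : ℂ)})ᶜ :=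
    nhdsWithin_le_nhds (L₂.compl_lattice_sdiff_singleton_mem_nhds 0)
  have m₃ : ∀ᶠ z in 𝓝[≠] (0 : ℂ), L₁.weierstrassP =ᶠ[𝓝 z] L₂.weierstrassP :=
    nhdsWithin_le_nhds (eventually_weierstrassP_eq L₁ L₂ h2 h3).eventually_nhds
  have m₄ : ∀ᶠ z in 𝓝[≠] (0 : ℂ), z ≠ 0 := self_mem_nhdsWithin
  obtain ⟨z₀, hz₁, hz₂, hz₃, hz₄⟩ := (m₁.and (m₂.and (m₃.and m₄))).exists
  have hz₀U : z₀ ∈ U := by
    rintro (hmem | hmem)
    · exact hz₁ ⟨hmem, hz₄⟩
    · exact hz₂ ⟨hmem, hz₄⟩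
  exact a₁.eqOn_of_preconnected_of_eventuallyEq a₂ hUconn hz₀U hz₃

theorem lattice_le_of_g_eq (L₁ L₂ : PeriodPair) (h2 : L₁.g₂ = L₂.g₂) (h3 : L₁.g₃ = L₂.g₃) :
    L₂.lattice ≤ L₁.lattice := by
  intro l hl
  by_contra hl₁
  have han : AnalyticAt ℂ L₁.weierstrassP l := L₁.analyticOnNhd_weierstrassP l hl₁
  have hord := L₂.order_weierstrassP l hl
  have heq : L₁.weierstrassP =ᶠ[𝓝[≠] l] L₂.weierstrassP := by
    have m₁ : ∀ᶠ z in 𝓝[≠] l, z ∈ (L₁.lattice : Set ℂ)ᶜ :=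
      nhdsWithin_le_nhds (L₁.isClosed_lattice.isOpen_compl.mem_nhds hl₁)
    have m₂ : ∀ᶠ z in 𝓝[≠] l, z ∈ ((L₂.lattice : Set ℂ) \ {l})ᶜ :=
      nhdsWithin_le_nhds (L₂.compl_lattice_sdiff_singleton_mem_nhds l)
    filter_upwards [m₁, m₂, self_mem_nhdsWithin] with z hz₁ hz₂ hz
    refine weierstrassP_eqOn L₁ L₂ h2 h3 ?_
    rintro (hmem | hmem)
    · exact hz₁ hmem
    · exact hz₂ ⟨hmem, hz⟩
  have h0 := han.meromorphicOrderAt_nonneg
  rw [meromorphicOrderAt_congr heq, hord] at h0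
  exact absurd h0 (by decide)

/-- **The invariants `g₂`, `g₃` determine the lattice.** -/
theorem lattice_eq_of_g_eq (L₁ L₂ : PeriodPair) (h2 : L₁.g₂ = L₂.g₂) (h3 : L₁.g₃ = L₂.g₃) :
    L₁.lattice = L₂.lattice :=
  le_antisymm (lattice_le_of_g_eq L₂ L₁ h2.symm h3.symm) (lattice_le_of_g_eq L₁ L₂ h2 h3)

end Fermat.Agent.S21.J2
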